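-- S09 wiring: Mazur's irreducibility statement for the Frey curve from
--   S13 (reducible implies a Galois-stable cofixed line),
--   S10 (no cofixed line for p in {5, 7, 13}), S11 (p = 11),
--   and a hypothesis covering the range 17 ≤ p (the content of S12).
import Fermat.Statements.S09
import Fermat.Agent.S10
import Fermat.Agent.S11
import Fermat.Agent.S13

set_option autoImplicit false
open WeierstrassCurve WeierstrassCurve.Affine WeierstrassCurve.Affine.Point
open FreyPackage

namespace Fermat.Agent.S09W

/-- The shape of statement S12, as a hypothesis. -/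
def NoCofixedLineLarge : Prop :=
  ∀ P : FreyPackage, 17 ≤ P.p →
    ¬ HasGaloisStableCofixedLine (K := AlgebraicClosure ℚ) ℚ P.freyCurve P.p

/-- A prime `p` with `5 ≤ p` and `p < 17` is one of `5, 7, 11, 13`. -/
theorem small_prime_cases {p : ℕ} (hp : p.Prime) (h5 : 5 ≤ p) (h17 : p < 17) :
    p = 5 ∨ p = 7 ∨ p = 11 ∨ p = 13 := by
  interval_cases p <;> first | omega | (exfalso; revert hp; decide)

/-- No Frey package has a Galois-stable cofixed line, given the large-`p` case. -/
theorem no_cofixedLine_of_large (h12 : NoCofixedLineLarge) (P : FreyPackage) :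
    ¬ HasGaloisStableCofixedLine (K := AlgebraicClosure ℚ) ℚ P.freyCurve P.p := by
  by_cases h17 : 17 ≤ P.p
  · exact h12 P h17
  · rcases small_prime_cases P.pp P.hp5 (by omega) with h | h | h | h
    · exact Fermat.Agent.S10.result P (Or.inl h)
    · exact Fermat.Agent.S10.result P (Or.inr (Or.inl h))
    · exact Fermat.Agent.S11.result P h
    · exact Fermat.Agent.S10.result P (Or.inr (Or.inr h))

/-- S09 from the large-`p` case of S12. -/
theorem irreducible_of_large (h12 : NoCofixedLineLarge) (P : FreyPackage) :
    GaloisRepIsIrreducible (K := AlgebraicClosure ℚ) ℚ P.freyCurve P.p := by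
  by_contra hred
  exact no_cofixedLine_of_large h12 P (Fermat.Agent.S13.result P hred)

end Fermat.Agent.S09W
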